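import Mathlib

/-!
# (K4-LIN): eigenspaces of a pullback operator on function spaces, after extension of scalars

`k` a field, `Γ` a type, `W ≤ (Γ → k)` a `k`-subspace stable under `χ ↦ χ ∘ R` (`R : Γ → Γ`),
`K/k` a finite-dimensional field extension.
* `pullW W R hR : W →ₗ[k] W` is `χ ↦ χ ∘ R`;
* `extW W K ≤ (Γ → K)` is the `K`-subspace of those `χ` with `ℓ ∘ χ ∈ W` for all `k`-linear
  `ℓ : K → k` (the `K`-span of `W`);
* `eigW W R K lam = {χ ∈ extW W K | χ ∘ R = lam • χ}`.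
Then `a ⊗ χ ↦ (γ ↦ χ γ • a)` is a `K`-linear isomorphism `K ⊗[k] W ≃ extW W K` (`tensorEquiv`)
intertwining `(pullW W R hR).baseChange K` with `χ ↦ χ ∘ R`; hence
`eigWEquiv : eigenspace ((pullW W R hR).baseChange K) lam ≃ₗ[K] eigW W R K lam` and
`finrank k (eigW W R K lam) = finrank k K * finrank K (eigenspace ((pullW W R hR).baseChange K) lam)`.
-/

set_option autoImplicit false
set_option linter.unusedSectionVars false

open Module TensorProduct

namespace Fermat.Agent.TW.Euler.K4Lin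

variable {k : Type*} [Field k] {Γ : Type*} (W : Submodule k (Γ → k)) (R : Γ → Γ)
  (K : Type*) [Field K] [Algebra k K]

/-- Pullback by `R` on `W`. -/
def pullW (hR : ∀ χ ∈ W, χ ∘ R ∈ W) : W →ₗ[k] W :=
  (LinearMap.funLeft k k R).restrict hR

@[simp] lemma pullW_apply (hR : ∀ χ ∈ W, χ ∘ R ∈ W) (χ : W) (γ : Γ) :
    (pullW W R hR χ).1 γ = χ.1 (R γ) := rfl

/-- The `K`-valued functions all of whose `k`-coordinates lie in `W`. -/
def extW : Submodule K (Γ → K) where
  carrier := {χ | ∀ ℓ : K →ₗ[k] k, ⇑ℓ ∘ χ ∈ W}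
  add_mem' := by
    intro a b ha hb ℓ
    have : ⇑ℓ ∘ (a + b) = ⇑ℓ ∘ a + ⇑ℓ ∘ b := by
      funext γ
      simp
    rw [this]
    exact W.add_mem (ha ℓ) (hb ℓ)
  zero_mem' := by
    intro ℓ
    have : ⇑ℓ ∘ (0 : Γ → K) = 0 := by
      funext γ
      simp
    rw [this]
    exact W.zero_mem
  smul_mem' := by
    intro c a ha ℓ
    have : ⇑ℓ ∘ (c • a) = ⇑(ℓ ∘ₗ LinearMap.restrictScalars k (LinearMap.mulLeft K c)) ∘ a := by
      funext γ
      simp
    rw [this]
    exact ha _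

lemma mem_extW (χ : Γ → K) : χ ∈ extW W K ↔ ∀ ℓ : K →ₗ[k] k, ⇑ℓ ∘ χ ∈ W := Iff.rfl

/-- The `lam`-eigenspace of `χ ↦ χ ∘ R` on `extW W K`. -/
def eigW (lam : K) : Submodule K (Γ → K) where
  carrier := {χ | χ ∈ extW W K ∧ χ ∘ R = lam • χ}
  add_mem' := by
    rintro a b ⟨ha, ha'⟩ ⟨hb, hb'⟩
    refine ⟨(extW W K).add_mem ha hb, ?_⟩
    rw [smul_add, ← ha', ← hb']
    rfl
  zero_mem' := ⟨(extW W K).zero_mem, by rw [smul_zero]; rfl⟩
  smul_mem' := by
    rintro c a ⟨ha, ha'⟩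
    refine ⟨(extW W K).smul_mem c ha, ?_⟩
    rw [smul_comm, ← ha']
    rfl

lemma mem_eigW (lam : K) (χ : Γ → K) :
    χ ∈ eigW W R K lam ↔ χ ∈ extW W K ∧ χ ∘ R = lam • χ := Iff.rfl

/-- Evaluation `K ⊗[k] (Γ → k) → (Γ → K)`, `a ⊗ f ↦ (γ ↦ f γ • a)`. -/
noncomputable def evK : K ⊗[k] (Γ → k) →ₗ[K] (Γ → K) :=
  LinearMap.pi fun γ =>
    (TensorProduct.AlgebraTensorModule.rid k K K).toLinearMap ∘ₗ
      (LinearMap.baseChange K (LinearMap.proj γ : (Γ → k) →ₗ[k] k))

lemma evK_tmul (a : K) (f : Γ → k) (γ : Γ) : evK (Γ := Γ) K (a ⊗ₜ[k] f) γ = f γ • a := by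
  simp [evK]

/-- The comparison map `K ⊗[k] W → (Γ → K)`, `a ⊗ χ ↦ (γ ↦ χ γ • a)`. -/
noncomputable def tensorMap : K ⊗[k] W →ₗ[K] (Γ → K) :=
  evK K ∘ₗ (W.subtype.baseChange K)

lemma tensorMap_tmul (a : K) (χ : W) (γ : Γ) : tensorMap W K (a ⊗ₜ[k] χ) γ = χ.1 γ • a := by
  simp [tensorMap, evK_tmul]

/-- The comparison map intertwines `(pullW W R hR).baseChange K` with `χ ↦ χ ∘ R`. -/
lemma tensorMap_baseChange (hR : ∀ χ ∈ W, χ ∘ R ∈ W) (t : K ⊗[k] W) :
    tensorMap W K ((pullW W R hR).baseChange K t) = tensorMap W K t ∘ R := by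
  induction t using TensorProduct.induction_on with
  | zero => simp only [map_zero]; rfl
  | tmul a χ =>
    funext γ
    rw [LinearMap.baseChange_tmul, tensorMap_tmul, Function.comp_apply, tensorMap_tmul,
      pullW_apply]
  | add x y hx hy =>
    rw [map_add, map_add, hx, hy, map_add]
    rfl

lemma tensorMap_mem_extW (t : K ⊗[k] W) : tensorMap W K t ∈ extW W K := by
  induction t using TensorProduct.induction_on with
  | zero => rw [map_zero]; exact (extW W K).zero_mem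
  | tmul a χ =>
    intro ℓ
    have : ⇑ℓ ∘ tensorMap W K (a ⊗ₜ[k] χ) = ℓ a • χ.1 := by
      funext γ
      rw [Function.comp_apply, tensorMap_tmul, map_smul, Pi.smul_apply, smul_eq_mul, smul_eq_mul,
        mul_comm]
    rw [this]
    exact W.smul_mem _ χ.2
  | add x y hx hy =>
    rw [map_add]
    exact (extW W K).add_mem hx hy

variable [FiniteDimensional k K]

lemma tensorMap_sum (c : Fin (finrank k K) →₀ W) (γ : Γ) :
    tensorMap W K (c.sum fun i n => (Module.finBasis k K) i ⊗ₜ[k] n) γ =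
      ∑ i, (c i).1 γ • (Module.finBasis k K) i := by
  rw [Finsupp.sum_fintype _ _ (fun i => by rw [tmul_zero]), map_sum, Finset.sum_apply]
  refine Finset.sum_congr rfl fun i _ => ?_
  rw [tensorMap_tmul]

lemma tensorMap_injective : Function.Injective (tensorMap W K) := by
  rw [injective_iff_map_eq_zero]
  intro t ht
  obtain ⟨c, rfl⟩ := TensorProduct.eq_repr_basis_left (Module.finBasis k K) t
  have hc : c = 0 := by
    ext i γ
    have h1 := tensorMap_sum W K c γ
    rw [ht, Pi.zero_apply] at h1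
    have h2 := Fintype.linearIndependent_iff.1 (Module.finBasis k K).linearIndependent
      (fun i => (c i).1 γ) h1.symm i
    simpa using h2
  rw [hc, Finsupp.sum_zero_index]

lemma exists_tensorMap_eq {χ : Γ → K} (hχ : χ ∈ extW W K) : ∃ t, tensorMap W K t = χ := by
  refine ⟨∑ i, (Module.finBasis k K) i ⊗ₜ[k]
    (⟨⇑((Module.finBasis k K).coord i) ∘ χ, hχ _⟩ : W), ?_⟩
  funext γ
  rw [map_sum, Finset.sum_apply]
  have h := (Module.finBasis k K).sum_repr (χ γ)
  conv_rhs => rw [← h]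
  refine Finset.sum_congr rfl fun i _ => ?_
  rw [tensorMap_tmul]
  rfl

/-- `K ⊗[k] W ≃ extW W K`, `a ⊗ χ ↦ (γ ↦ χ γ • a)`. -/
noncomputable def tensorEquiv : K ⊗[k] W ≃ₗ[K] extW W K :=
  LinearEquiv.ofBijective ((tensorMap W K).codRestrict (extW W K) (tensorMap_mem_extW W K))
    ⟨fun x y h => tensorMap_injective W K (congrArg Subtype.val h), fun χ => by
      obtain ⟨t, ht⟩ := exists_tensorMap_eq W K χ.2
      exact ⟨t, Subtype.ext ht⟩⟩

lemma tensorEquiv_coe (t : K ⊗[k] W) : ((tensorEquiv W K t : extW W K) : Γ → K) = tensorMap W K t :=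
  rfl

lemma tensorEquiv_tmul (a : K) (χ : W) (γ : Γ) :
    (tensorEquiv W K (a ⊗ₜ[k] χ)).1 γ = χ.1 γ • a :=
  tensorMap_tmul W K a χ γ

lemma tensorEquiv_baseChange (hR : ∀ χ ∈ W, χ ∘ R ∈ W) (t : K ⊗[k] W) :
    (tensorEquiv W K ((pullW W R hR).baseChange K t)).1 = (tensorEquiv W K t).1 ∘ R :=
  tensorMap_baseChange W R K hR t

lemma tensorMap_mem_eigW (hR : ∀ χ ∈ W, χ ∘ R ∈ W) (lam : K)
    (t : Module.End.eigenspace ((pullW W R hR).baseChange K) lam) :
    tensorMap W K t.1 ∈ eigW W R K lam := by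
  refine ⟨tensorMap_mem_extW W K _, ?_⟩
  rw [← tensorMap_baseChange W R K hR, Module.End.mem_eigenspace_iff.1 t.2, map_smul]

/-- **(K4-LIN), equivalence form.** -/
noncomputable def eigWEquiv (hR : ∀ χ ∈ W, χ ∘ R ∈ W) (lam : K) :
    Module.End.eigenspace ((pullW W R hR).baseChange K) lam ≃ₗ[K] eigW W R K lam :=
  LinearEquiv.ofBijective
    (((tensorMap W K).domRestrict (Module.End.eigenspace ((pullW W R hR).baseChange K) lam)).codRestrict
      (eigW W R K lam) (tensorMap_mem_eigW W R K hR lam))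
    ⟨fun x y h => Subtype.ext (tensorMap_injective W K (congrArg Subtype.val h)), fun χ => by
      obtain ⟨t, ht⟩ := exists_tensorMap_eq W K χ.2.1
      have hmem : t ∈ Module.End.eigenspace ((pullW W R hR).baseChange K) lam := by
        rw [Module.End.mem_eigenspace_iff]
        apply tensorMap_injective W K
        rw [tensorMap_baseChange, ht, χ.2.2, map_smul, ht]
      exact ⟨⟨t, hmem⟩, Subtype.ext ht⟩⟩

lemma eigWEquiv_coe (hR : ∀ χ ∈ W, χ ∘ R ∈ W) (lam : K)
    (t : Module.End.eigenspace ((pullW W R hR).baseChange K) lam) :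
    ((eigWEquiv W R K hR lam t : eigW W R K lam) : Γ → K) = tensorMap W K t.1 := rfl

/-- `eigWEquiv` on pure tensors. -/
theorem eigWEquiv_apply (hR : ∀ χ ∈ W, χ ∘ R ∈ W) (lam : K)
    (t : Module.End.eigenspace ((pullW W R hR).baseChange K) lam) (a : K) (χ : W)
    (h : (t : K ⊗[k] W) = a ⊗ₜ χ) (γ : Γ) :
    (eigWEquiv W R K hR lam t).1 γ = χ.1 γ • a := by
  rw [eigWEquiv_coe, h, tensorMap_tmul]

/-- **(K4-LIN), dimension form over `K`.** -/
theorem finrank_eigW_top (hR : ∀ χ ∈ W, χ ∘ R ∈ W) (lam : K) :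
    finrank K (eigW W R K lam) =
      finrank K (Module.End.eigenspace ((pullW W R hR).baseChange K) lam) :=
  (eigWEquiv W R K hR lam).finrank_eq.symm

/-- **(K4-LIN), dimension form over `k`.** -/
theorem finrank_eigW (hR : ∀ χ ∈ W, χ ∘ R ∈ W) (lam : K) :
    finrank k (eigW W R K lam) =
      finrank k K * finrank K (Module.End.eigenspace ((pullW W R hR).baseChange K) lam) := by
  rw [← finrank_eigW_top W R K hR lam]
  exact (Module.finrank_mul_finrank k K (eigW W R K lam)).symm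

/-- The same with `restrictScalars`. -/
theorem finrank_eigW_restrictScalars (hR : ∀ χ ∈ W, χ ∘ R ∈ W) (lam : K) :
    finrank k ((eigW W R K lam).restrictScalars k) =
      finrank k K * finrank K (Module.End.eigenspace ((pullW W R hR).baseChange K) lam) := by
  rw [← finrank_eigW W R K hR lam]
  exact (((eigW W R K lam).restrictScalarsEquiv k _ _).restrictScalars k).finrank_eq

end Fermat.Agent.TW.Euler.K4Lin
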