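/-
Program G (S56), block GW-Euler, base case, node (H1-ID) / `KumEigOut`, piece (KE-1) — helper1.

SHARED VOCABULARY for (KE-1)/(KE-2)/(KE-3):
* `WChar p T N`  : the `𝔽_p`-space of additive level-constant characters `N → 𝔽_p`
                   (level structure `Kummer.levU T N` induced by `globalLevel T`);
* `conjR N σ`    : conjugation `n ↦ σ n σ⁻¹` on the normal subgroup `N`;
* `conjR_stable` : `WChar p T N` is stable under `χ ↦ χ ∘ conjR N σ`.
-/
import Fermat.Agent.TW.Euler.Kummer.KummerGen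

set_option autoImplicit false

open Fermat.Agent.CFT Fermat.Agent.S55

namespace Fermat.Agent.TW.Euler.K4

local notation "GQ" => (AlgebraicClosure ℚ ≃ₐ[ℚ] AlgebraicClosure ℚ)

/-- Additive level-constant characters `N → 𝔽_p`. -/
def WChar (p : ℕ) (T : Finset Nat.Primes) (N : Subgroup GQ) : Submodule (ZMod p) (↥N → ZMod p) where
  carrier := {χ | (∀ a b : N, χ (a * b) = χ a + χ b) ∧ (Kummer.levU T N).IsLC₁ χ}
  zero_mem' := by
    refine ⟨fun a b => by simp, ?_⟩
    obtain ⟨V, hV⟩ := (Kummer.levU T N).exists_level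
    exact ⟨V, hV, fun g s _ => rfl⟩
  add_mem' := by
    rintro χ χ' ⟨h1, ⟨V, hV, h2⟩⟩ ⟨h1', ⟨V', hV', h2'⟩⟩
    refine ⟨fun a b => ?_, ?_⟩
    · simp only [Pi.add_apply, h1 a b, h1' a b]; abel
    · obtain ⟨V'', hV'', hle⟩ := (Kummer.levU T N).directed hV hV'
      refine ⟨V'', hV'', fun g s hs => ?_⟩
      simp only [Pi.add_apply, h2 g s (hle hs).1, h2' g s (hle hs).2]
  smul_mem' := by
    rintro c χ ⟨h1, ⟨V, hV, h2⟩⟩
    refine ⟨fun a b => ?_, ⟨V, hV, fun g s hs => ?_⟩⟩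
    · simp only [Pi.smul_apply, h1 a b, smul_add]
    · simp only [Pi.smul_apply, h2 g s hs]

lemma mem_WChar {p : ℕ} {T : Finset Nat.Primes} {N : Subgroup GQ} {χ : ↥N → ZMod p} :
    χ ∈ WChar p T N ↔ (∀ a b : N, χ (a * b) = χ a + χ b) ∧ (Kummer.levU T N).IsLC₁ χ := Iff.rfl

/-- Conjugation by `σ` on the normal subgroup `N`. -/
noncomputable def conjR (N : Subgroup GQ) [hN : N.Normal] (σ : GQ) : ↥N → ↥N :=
  fun n => ⟨σ * n * σ⁻¹, hN.conj_mem n n.2 σ⟩

@[simp] lemma coe_conjR (N : Subgroup GQ) [N.Normal] (σ : GQ) (n : N) :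
    ((conjR N σ n : N) : GQ) = σ * n * σ⁻¹ := rfl

lemma conjR_mul (N : Subgroup GQ) [N.Normal] (σ : GQ) (a b : N) :
    conjR N σ (a * b) = conjR N σ a * conjR N σ b := by
  apply Subtype.ext
  simp only [coe_conjR, Subgroup.coe_mul]
  group

/-- `WChar` is stable under pullback by conjugation. -/
theorem conjR_stable (p : ℕ) (T : Finset Nat.Primes) (N : Subgroup GQ) [N.Normal] (σ : GQ) :
    ∀ χ ∈ WChar p T N, χ ∘ conjR N σ ∈ WChar p T N := by
  rintro χ ⟨hadd, V, ⟨N', hN', rfl⟩, hV⟩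
  refine ⟨fun a b => ?_, N'.comap N.subtype, ⟨N', hN', rfl⟩, fun g s hs => ?_⟩
  · simp only [Function.comp_apply, conjR_mul, hadd]
  · simp only [Function.comp_apply, conjR_mul]
    refine hV _ _ ?_
    have hnorm : N'.Normal := (globalLevel T).normal hN'
    exact hnorm.conj_mem _ hs σ

end Fermat.Agent.TW.Euler.K4
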