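/-
Program G (S56), block GW-Euler, base case, node (H1-ID) / `KumEigOut`, piece (KE-1) — helper1.

For `D ≤ Ḡ = GQ ⧸ N` generated by the class of `σ`, the space `homD T N D ψ` of `D`-equivariant
LC homomorphisms `N → k'` is the `ψ(σ̄)`-eigenspace of `χ ↦ χ ∘ conjR N σ` on the `k'`-valued
extension of `WChar p T N`; hence (helper6's (K4-LIN))
`dim_{𝔽_p} homD = [k' : 𝔽_p] · dim_{k'} eigenspace ((pullW W R).baseChange k') (ψ σ̄)`.
-/
import Fermat.Agent.TW.Euler.Base.K4.WDefs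
import Fermat.Agent.TW.Euler.Base.K4.Lin
import Fermat.Agent.TW.Euler.Base.Arith.Defs

set_option autoImplicit false

open CategoryTheory Module ExtCitation TensorProduct
open Fermat.Agent.CFT Fermat.Agent.S55

namespace Fermat.Agent.TW.Euler.K4

open Fermat.Agent.TW.Euler

local notation "GQ" => (AlgebraicClosure ℚ ≃ₐ[ℚ] AlgebraicClosure ℚ)

variable {p : ℕ} [Fact p.Prime] (T : Finset Nat.Primes) (N : Subgroup GQ) [hN : N.Normal]
  (D : Subgroup (GQ ⧸ N)) {k' : Type} [Field k'] [Algebra (ZMod p) k'] (ψ : D →* k'ˣ)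

/-! ### `extW (WChar p T N) k'` is the space of additive LC characters `N → k'` -/

lemma additive_of_mem_extW {χ : ↥N → k'} (hχ : χ ∈ K4Lin.extW (WChar p T N) k') (a b : N) :
    χ (a * b) = χ a + χ b := by
  rw [← sub_eq_zero]
  refine (Module.forall_dual_apply_eq_zero_iff (ZMod p) _).1 fun ℓ => ?_
  have h := (hχ ℓ).1 a b
  simp only [Function.comp_apply] at h
  rw [map_sub, map_add, h, sub_self]

lemma isLC₁_of_mem_extW [FiniteDimensional (ZMod p) k'] {χ : ↥N → k'}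
    (hχ : χ ∈ K4Lin.extW (WChar p T N) k') : (Kummer.levU T N).IsLC₁ χ := by
  classical
  let b := Module.finBasis (ZMod p) k'
  -- a common level for the finitely many coordinates
  have hcommon : ∀ s : Finset (Fin (finrank (ZMod p) k')), ∃ V, (Kummer.levU T N).IsLevel V ∧
      ∀ i ∈ s, ∀ g : N, ∀ t ∈ V, b.coord i (χ (g * t)) = b.coord i (χ g) := by
    intro s
    induction s using Finset.induction_on with
    | empty =>
      obtain ⟨V, hV⟩ := (Kummer.levU T N).exists_level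
      exact ⟨V, hV, fun i hi => absurd hi (Finset.notMem_empty i)⟩
    | insert i s _ ih =>
      obtain ⟨V, hV, hVs⟩ := ih
      obtain ⟨V', hV', hVi⟩ := (hχ (b.coord i)).2
      obtain ⟨V'', hV'', hle⟩ := (Kummer.levU T N).directed hV hV'
      refine ⟨V'', hV'', fun j hj g t ht => ?_⟩
      rcases Finset.mem_insert.1 hj with rfl | hj
      · exact hVi g t (hle ht).2
      · exact hVs j hj g t (hle ht).1
  obtain ⟨V, hV, hVall⟩ := hcommon Finset.univ
  refine ⟨V, hV, fun g t ht => ?_⟩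
  apply b.ext_elem
  intro i
  exact hVall i (Finset.mem_univ i) g t ht

lemma mem_extW_of_additive_isLC₁ {χ : ↥N → k'} (hadd : ∀ a b : N, χ (a * b) = χ a + χ b)
    (hlc : (Kummer.levU T N).IsLC₁ χ) : χ ∈ K4Lin.extW (WChar p T N) k' := by
  intro ℓ
  refine ⟨fun a b => ?_, ?_⟩
  · simp only [Function.comp_apply, hadd, map_add]
  · obtain ⟨V, hV, h⟩ := hlc
    exact ⟨V, hV, fun g s hs => by simp only [Function.comp_apply, h g s hs]⟩

theorem mem_extW_iff [FiniteDimensional (ZMod p) k'] {χ : ↥N → k'} :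
    χ ∈ K4Lin.extW (WChar p T N) k' ↔
      (∀ a b : N, χ (a * b) = χ a + χ b) ∧ (Kummer.levU T N).IsLC₁ χ :=
  ⟨fun h => ⟨additive_of_mem_extW T N h, isLC₁_of_mem_extW T N h⟩,
    fun h => mem_extW_of_additive_isLC₁ T N h.1 h.2⟩

/-! ### The subgroup of `GQ` on which an additive `χ` is `ψ`-equivariant -/

section Eq

variable {N D ψ}

lemma additive_one {χ : ↥N → k'} (hadd : ∀ a b : N, χ (a * b) = χ a + χ b) : χ 1 = 0 := by
  have h := hadd 1 1
  rw [mul_one] at h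
  have h' : χ 1 + 0 = χ 1 + χ 1 := by rw [add_zero]; exact h
  exact (add_left_cancel h').symm

lemma additive_inv {χ : ↥N → k'} (hadd : ∀ a b : N, χ (a * b) = χ a + χ b) (a : N) :
    χ a⁻¹ = -χ a := by
  have h := hadd a a⁻¹
  rw [mul_inv_cancel, additive_one hadd] at h
  exact eq_neg_of_add_eq_zero_right h.symm

/-- The elements of `GQ` over `D` on which `χ` is `ψ`-equivariant, as a subgroup. -/
def eqSubgroup (N : Subgroup GQ) [hN : N.Normal] (D : Subgroup (GQ ⧸ N)) (ψ : D →* k'ˣ)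
    (χ : ↥N → k') : Subgroup GQ where
  carrier := {g | ∃ hg : (QuotientGroup.mk g : GQ ⧸ N) ∈ D, ∀ n : N,
    χ (conjR N g n) = ((ψ ⟨_, hg⟩ : k'ˣ) : k') * χ n}
  one_mem' := by
    refine ⟨by rw [QuotientGroup.mk_one]; exact D.one_mem, fun n => ?_⟩
    have h1 : conjR N 1 n = n := by
      apply Subtype.ext
      simp
    have h2 : (⟨(QuotientGroup.mk (1 : GQ) : GQ ⧸ N),
        by rw [QuotientGroup.mk_one]; exact D.one_mem⟩ : D) = 1 := Subtype.ext rfl
    rw [h1, h2, map_one, Units.val_one, one_mul]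
  mul_mem' := by
    rintro g h ⟨hg, hg'⟩ ⟨hh, hh'⟩
    refine ⟨by rw [QuotientGroup.mk_mul]; exact D.mul_mem hg hh, fun n => ?_⟩
    have h1 : conjR N (g * h) n = conjR N g (conjR N h n) := by
      apply Subtype.ext
      simp only [coe_conjR]
      group
    have h2 : (⟨(QuotientGroup.mk (g * h) : GQ ⧸ N),
        by rw [QuotientGroup.mk_mul]; exact D.mul_mem hg hh⟩ : D)
        = ⟨_, hg⟩ * ⟨_, hh⟩ := Subtype.ext rfl
    rw [h1, hg', hh', h2, map_mul, Units.val_mul, mul_assoc]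
  inv_mem' := by
    rintro g ⟨hg, hg'⟩
    refine ⟨by rw [QuotientGroup.mk_inv]; exact D.inv_mem hg, fun n => ?_⟩
    have h1 : conjR N g (conjR N g⁻¹ n) = n := by
      apply Subtype.ext
      simp only [coe_conjR]
      group
    have h2 : (⟨(QuotientGroup.mk g⁻¹ : GQ ⧸ N),
        by rw [QuotientGroup.mk_inv]; exact D.inv_mem hg⟩ : D) = (⟨_, hg⟩ : D)⁻¹ :=
      Subtype.ext rfl
    have h3 := hg' (conjR N g⁻¹ n)
    rw [h1] at h3
    rw [h2, map_inv, h3, ← mul_assoc, ← Units.val_mul, inv_mul_cancel, Units.val_one, one_mul]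

lemma mem_eqSubgroup_iff {χ : ↥N → k'} {g : GQ} :
    g ∈ eqSubgroup N D ψ χ ↔ ∃ hg : (QuotientGroup.mk g : GQ ⧸ N) ∈ D, ∀ n : N,
      χ (conjR N g n) = ((ψ ⟨_, hg⟩ : k'ˣ) : k') * χ n := Iff.rfl

/-- `N ≤ eqSubgroup` for additive `χ`. -/
lemma le_eqSubgroup {χ : ↥N → k'} (hadd : ∀ a b : N, χ (a * b) = χ a + χ b) :
    N ≤ eqSubgroup N D ψ χ := by
  intro n₀ hn₀
  have hmk : (QuotientGroup.mk n₀ : GQ ⧸ N) = 1 := (QuotientGroup.eq_one_iff n₀).2 hn₀
  refine ⟨by rw [hmk]; exact D.one_mem, fun n => ?_⟩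
  have h1 : conjR N n₀ n = ⟨n₀, hn₀⟩ * n * (⟨n₀, hn₀⟩ : N)⁻¹ := Subtype.ext rfl
  have h2 : (⟨(QuotientGroup.mk n₀ : GQ ⧸ N), by rw [hmk]; exact D.one_mem⟩ : D) = 1 :=
    Subtype.ext hmk
  rw [h1, hadd, hadd, additive_inv hadd, h2, map_one, Units.val_one, one_mul]
  ring

/-- If `σ̄` generates `D` and `χ` (additive) is equivariant for `σ`, it is equivariant for all
`g` over `D`. -/
theorem equivariant_of_gen {χ : ↥N → k'} (hadd : ∀ a b : N, χ (a * b) = χ a + χ b)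
    (σ : GQ) (hσ : (QuotientGroup.mk σ : GQ ⧸ N) ∈ D)
    (hgen : ∀ d : D, d ∈ Subgroup.zpowers (⟨QuotientGroup.mk σ, hσ⟩ : D))
    (hχσ : ∀ n : N, χ (conjR N σ n) = ((ψ ⟨_, hσ⟩ : k'ˣ) : k') * χ n)
    (g : GQ) (hg : (QuotientGroup.mk g : GQ ⧸ N) ∈ D) (n : N) :
    χ (conjR N g n) = ((ψ ⟨_, hg⟩ : k'ˣ) : k') * χ n := by
  have hσmem : σ ∈ eqSubgroup N D ψ χ := ⟨hσ, hχσ⟩
  obtain ⟨m, hm⟩ := Subgroup.mem_zpowers_iff.1 (hgen ⟨_, hg⟩)
  have hm' : (QuotientGroup.mk (σ ^ m) : GQ ⧸ N) = QuotientGroup.mk g := by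
    have := congrArg (Subtype.val : D → GQ ⧸ N) hm
    rw [Subgroup.coe_zpow] at this
    rw [QuotientGroup.mk_zpow]
    exact this
  have hN' : (σ ^ m)⁻¹ * g ∈ N := QuotientGroup.eq.1 hm'
  have hgmem : g ∈ eqSubgroup N D ψ χ := by
    have : g = σ ^ m * ((σ ^ m)⁻¹ * g) := by group
    rw [this]
    exact (eqSubgroup N D ψ χ).mul_mem ((eqSubgroup N D ψ χ).zpow_mem hσmem m)
      (le_eqSubgroup hadd hN')
  obtain ⟨_, h⟩ := hgmem
  exact h n

end Eq

/-! ### (KE-1) -/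

/-- **(KE-1).** -/
theorem homD_eq_eigW [Finite k'] (σ : GQ) (hσ : (QuotientGroup.mk σ : GQ ⧸ N) ∈ D)
    (hgen : ∀ d : D, d ∈ Subgroup.zpowers (⟨QuotientGroup.mk σ, hσ⟩ : D)) :
    homD (p := p) T N D ψ =
      (K4Lin.eigW (WChar p T N) (conjR N σ) k' ((ψ ⟨_, hσ⟩ : k'ˣ) : k')).restrictScalars
        (ZMod p) := by
  have : FiniteDimensional (ZMod p) k' := Module.Finite.of_finite
  ext χ
  rw [Submodule.restrictScalars_mem, K4Lin.mem_eigW, mem_extW_iff]
  constructor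
  · rintro ⟨hadd, hlc, heq⟩
    refine ⟨⟨hadd, hlc⟩, ?_⟩
    funext n
    rw [Function.comp_apply, Pi.smul_apply, smul_eq_mul]
    exact heq σ hσ n
  · rintro ⟨⟨hadd, hlc⟩, heq⟩
    refine ⟨hadd, hlc, fun g hg n => ?_⟩
    refine equivariant_of_gen hadd σ hσ hgen (fun n => ?_) g hg n
    have := congrFun heq n
    rw [Function.comp_apply, Pi.smul_apply, smul_eq_mul] at this
    exact this

/-- **(KE-1), dimension form.** -/
theorem finrank_homD_eq [Finite k'] (σ : GQ) (hσ : (QuotientGroup.mk σ : GQ ⧸ N) ∈ D)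
    (hgen : ∀ d : D, d ∈ Subgroup.zpowers (⟨QuotientGroup.mk σ, hσ⟩ : D)) :
    finrank (ZMod p) (homD (p := p) T N D ψ) =
      finrank (ZMod p) k' * finrank k' (Module.End.eigenspace
        ((K4Lin.pullW (WChar p T N) (conjR N σ) (conjR_stable p T N σ)).baseChange k')
        ((ψ ⟨_, hσ⟩ : k'ˣ) : k')) := by
  have : FiniteDimensional (ZMod p) k' := Module.Finite.of_finite
  rw [homD_eq_eigW T N D ψ σ hσ hgen]
  exact K4Lin.finrank_eigW_restrictScalars (WChar p T N) (conjR N σ) k' (conjR_stable p T N σ) _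

end Fermat.Agent.TW.Euler.K4
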